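/-
N4-FULL, row `Cont` (helper21): **continuity of the Galois action on `J₀(N)(ℚ̄)`** — every point has
a stabiliser which contains `Gal(ℚ̄/E)` for a finite extension `E/ℚ`.

Generic part (`L` any field algebraic over `ℚ`, `F₀ ⊆ ℚ((q))` any subfield, `F := L · F₀ ⊆ L((q))`
with the coefficientwise action of `Gal(L/ℚ)`, assuming `HasPrincipalDivisors L F`):

* `hasOpenStab_of_mem`, `exists_fixesField_smul_eq` : every function `h ∈ F` is fixed by
  `Gal(L/E)`, `E/ℚ` finite (closure induction on the generators);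
* `finite_setOf_ord_pos` : a nonzero function has finitely many zeros;
* `exists_fixesField_smul_place_eq` : every place `P` of `F/L` is fixed by some `Gal(L/E)`:
  take a uniformiser `f` at `P`, fixed by `Gal(L/E_f)`; then `σ • P` is a zero of `f`; for each of
  the finitely many zeros `Q ≠ P` of `f` pick `h_Q ∈ O_P ∖ O_Q` (two distinct places are
  incomparable) fixed by `Gal(L/E_Q)`: if `σ` fixes `E_f` and all `E_Q` then `σ • P = P`;
* `exists_fixesField_smul_divisor_eq`, `exists_fixesField_smul_pic0_eq`,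
  `exists_fixesField_forall_smul_eq` : divisors, classes in `Pic⁰`, finite sets of classes.

Specialisation to `JZero N` (`N ≠ 0`): `exists_fixing_place`, `exists_fixing`,
`exists_fixing_of_finite`, `exists_isGalois_fixing_of_finite`, `isOpen_stabilizer`,
`galoisFactorsThroughFiniteLevel_torsionGaloisRep`.
-/
import Mathlib
import Fermat.Prelude.Def_ModularCurve_ArithmeticGalois
import Fermat.Prelude.Def_GaloisRep_Residual
import Fermat.Agent.N4F.A.FundIdentity
import Fermat.Agent.N4F.A.LevelMaps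

set_option autoImplicit false
set_option linter.unusedSectionVars false

namespace Fermat.Agent.N4F.Continuity

open AlgebraicCurve IntermediateField ModularCurve
open scoped Pointwise

section Generic

variable {L : Type*} [Field L] [Algebra ℚ L]

/-- `σ` fixes the intermediate field `E` pointwise. -/
def FixesField (E : IntermediateField ℚ L) (σ : L ≃ₐ[ℚ] L) : Prop := ∀ e ∈ E, σ e = e

lemma FixesField.mono {E E' : IntermediateField ℚ L} (h : E ≤ E') {σ : L ≃ₐ[ℚ] L}
    (hσ : FixesField E' σ) : FixesField E σ := fun e he => hσ e (h he)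

lemma fixesField_iff_mem_fixingSubgroup (E : IntermediateField ℚ L) (σ : L ≃ₐ[ℚ] L) :
    FixesField E σ ↔ σ ∈ E.fixingSubgroup := by
  rw [IntermediateField.mem_fixingSubgroup_iff]
  rfl

/-- A Laurent series over `L` has an open stabiliser for the coefficientwise action. -/
def HasOpenStab (x : LaurentSeries L) : Prop :=
  ∃ E : IntermediateField ℚ L, FiniteDimensional ℚ E ∧
    ∀ σ : L ≃ₐ[ℚ] L, FixesField E σ → coeffMap (σ : L →+* L) x = x

lemma HasOpenStab.map₂ {x y z : LaurentSeries L} (hx : HasOpenStab x) (hy : HasOpenStab y)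
    (h : ∀ σ : L ≃ₐ[ℚ] L, coeffMap (σ : L →+* L) x = x → coeffMap (σ : L →+* L) y = y →
      coeffMap (σ : L →+* L) z = z) : HasOpenStab z := by
  obtain ⟨E₁, h₁, hE₁⟩ := hx
  obtain ⟨E₂, h₂, hE₂⟩ := hy
  exact ⟨E₁ ⊔ E₂, IntermediateField.finiteDimensional_sup E₁ E₂, fun σ hσ =>
    h σ (hE₁ σ (hσ.mono le_sup_left)) (hE₂ σ (hσ.mono le_sup_right))⟩

lemma HasOpenStab.map₁ {x z : LaurentSeries L} (hx : HasOpenStab x)
    (h : ∀ σ : L ≃ₐ[ℚ] L, coeffMap (σ : L →+* L) x = x → coeffMap (σ : L →+* L) z = z) :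
    HasOpenStab z :=
  hx.map₂ hx fun σ h₁ _ => h σ h₁

variable [Algebra.IsAlgebraic ℚ L] (F₀ : IntermediateField ℚ (LaurentSeries ℚ))

/-- Every element of `L · F₀ ⊆ L((q))` is fixed by an open subgroup of `Gal(L/ℚ)`. -/
theorem hasOpenStab_of_mem {x : LaurentSeries L} (hx : x ∈ laurentBaseChange L F₀) :
    HasOpenStab x := by
  rw [mem_laurentBaseChange_iff] at hx
  induction hx using Subfield.closure_induction with
  | mem y hy =>
      rcases hy with ⟨a, rfl⟩ | ⟨z, hz, rfl⟩
      · refine ⟨ℚ⟮a⟯, IntermediateField.adjoin.finiteDimensional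
          (Algebra.IsIntegral.isIntegral a), fun σ hσ => ?_⟩
        rw [coeffMap_algebraMap]
        exact congrArg _ (hσ a (IntermediateField.mem_adjoin_simple_self ℚ a))
      · exact ⟨⊥, inferInstance, fun σ _ => coeffMap_coeffEmb σ z⟩
  | one => exact ⟨⊥, inferInstance, fun σ _ => map_one _⟩
  | add x y _ _ hx hy =>
      exact hx.map₂ hy fun σ h₁ h₂ => by rw [map_add, h₁, h₂]
  | neg x _ hx => exact hx.map₁ fun σ h₁ => by rw [map_neg, h₁]
  | inv x _ hx => exact hx.map₁ fun σ h₁ => by rw [map_inv₀, h₁]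
  | mul x y _ _ hx hy =>
      exact hx.map₂ hy fun σ h₁ h₂ => by rw [map_mul, h₁, h₂]


/-- Every element of the function field `L · F₀` is fixed by an open subgroup. -/
theorem exists_fixesField_smul_eq (h : laurentBaseChange L F₀) :
    ∃ E : IntermediateField ℚ L, FiniteDimensional ℚ E ∧
      ∀ σ : L ≃ₐ[ℚ] L, FixesField E σ → arithmeticGalois F₀ σ • h = h := by
  obtain ⟨E, hE, hfix⟩ := hasOpenStab_of_mem F₀ h.2
  exact ⟨E, hE, fun σ hσ => Subtype.ext ((coe_arithmeticGalois_smul F₀ σ h).trans (hfix σ hσ))⟩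

omit [Algebra.IsAlgebraic ℚ L] in
/-- The zeros of a nonzero function form a finite set. -/
lemma finite_setOf_ord_pos {K F : Type*} [Field K] [Field F] [Algebra K F]
    [HasPrincipalDivisors K F] {f : F} (hf : f ≠ 0) :
    {Q : Place K F | 0 < Q.ord f}.Finite := by
  obtain ⟨D, hD, -⟩ := HasPrincipalDivisors.exists_divisor (K := K) f hf
  refine D.support.finite_toSet.subset fun Q hQ => ?_
  rw [Finset.mem_coe, Finsupp.mem_support_iff, hD Q]
  exact (ne_of_gt hQ)

variable [HasPrincipalDivisors L (laurentBaseChange L F₀)]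

/-- **Open stabilisers of places**: every place of `L · F₀` over `L` is fixed by
`Gal(L/E)` for some finite `E/ℚ`. -/
theorem exists_fixesField_smul_place_eq (P : Place L (laurentBaseChange L F₀)) :
    ∃ E : IntermediateField ℚ L, FiniteDimensional ℚ E ∧
      ∀ σ : L ≃ₐ[ℚ] L, FixesField E σ → arithmeticGalois F₀ σ • P = P := by
  classical
  obtain ⟨f, hf0, hord⟩ : ∃ f : laurentBaseChange L F₀, f ≠ 0 ∧ P.ord f = 1 := by
    obtain ⟨π, hπ⟩ := IsDiscreteValuationRing.exists_irreducible P.toValuationSubring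
    exact ⟨π, fun h0 => hπ.ne_zero (Subtype.ext h0), P.ord_coe_irreducible hπ⟩
  have hZ := finite_setOf_ord_pos (K := L) hf0
  obtain ⟨Ef, hEf, hfixf⟩ := exists_fixesField_smul_eq F₀ f
  -- separate `P` from every other place
  have hsep : ∀ Q : Place L (laurentBaseChange L F₀), ∃ E : IntermediateField ℚ L,
      FiniteDimensional ℚ E ∧ (Q ≠ P → ∀ g : SemilinearAut L (laurentBaseChange L F₀),
        (∀ σ : L ≃ₐ[ℚ] L, FixesField E σ → g = arithmeticGalois F₀ σ → g • P ≠ Q)) := by
    intro Q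
    by_cases hQ : Q = P
    · exact ⟨⊥, inferInstance, fun h => absurd hQ h⟩
    · have hnle : ¬ P.toValuationSubring ≤ Q.toValuationSubring := fun hle =>
        hQ (Fermat.Agent.N4F.A.FundIdentity.eq_of_le hle).symm
      obtain ⟨h, hhP, hhQ⟩ := SetLike.not_le_iff_exists.1 hnle
      obtain ⟨E, hE, hfix⟩ := exists_fixesField_smul_eq F₀ h
      refine ⟨E, hE, fun _ g σ hσ hg hPQ => hhQ ?_⟩
      have h1 : g • h ∈ (g • P).toValuationSubring :=
        ValuationSubring.smul_mem_pointwise_smul _ _ _ hhP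
      have h2 : g • h = h := by rw [hg]; exact hfix σ hσ
      rw [h2, hPQ] at h1
      exact h1
  choose EQ hEQfin hEQ using hsep
  have hfinsup : FiniteDimensional ℚ (⨆ Q ∈ hZ.toFinset, EQ Q : IntermediateField ℚ L) :=
    IntermediateField.finiteDimensional_iSup_of_finset
  refine ⟨Ef ⊔ ⨆ Q ∈ hZ.toFinset, EQ Q, IntermediateField.finiteDimensional_sup _ _,
    fun σ hσ => ?_⟩
  generalize hg : arithmeticGalois F₀ σ = g
  have hgf : g • f = f := by rw [← hg]; exact hfixf σ (hσ.mono le_sup_left)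
  by_contra hne
  have hmem : g • P ∈ hZ.toFinset := by
    rw [Set.Finite.mem_toFinset]
    show 0 < (g • P).ord f
    have h1 := SemilinearAut.ord_smul g P f
    rw [hgf] at h1
    rw [h1, hord]
    exact one_pos
  refine hEQ (g • P) hne g σ (hσ.mono ?_) hg.symm rfl
  exact le_trans (le_iSup₂ (f := fun Q _ => EQ Q) _ hmem) le_sup_right


/-- Open stabilisers of divisors. -/
theorem exists_fixesField_smul_divisor_eq (D : Divisor L (laurentBaseChange L F₀)) :
    ∃ E : IntermediateField ℚ L, FiniteDimensional ℚ E ∧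
      ∀ σ : L ≃ₐ[ℚ] L, FixesField E σ → arithmeticGalois F₀ σ • D = D := by
  classical
  choose EP hEPfin hEP using exists_fixesField_smul_place_eq (L := L) F₀
  have hfinsup : FiniteDimensional ℚ (⨆ P ∈ D.support, EP P : IntermediateField ℚ L) :=
    IntermediateField.finiteDimensional_iSup_of_finset
  refine ⟨⨆ P ∈ D.support, EP P, hfinsup, fun σ hσ => ?_⟩
  rw [SemilinearAut.divisor_smul_def]
  refine (Finsupp.mapDomain_congr fun P hP => ?_).trans Finsupp.mapDomain_id
  exact hEP P σ (hσ.mono (le_iSup₂ (f := fun P _ => EP P) P hP))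

/-- **Open stabilisers on `Pic⁰`**: every class is fixed by `Gal(L/E)` for some finite `E/ℚ`. -/
theorem exists_fixesField_smul_pic0_eq (x : Pic0 L (laurentBaseChange L F₀)) :
    ∃ E : IntermediateField ℚ L, FiniteDimensional ℚ E ∧
      ∀ σ : L ≃ₐ[ℚ] L, FixesField E σ → σ • x = x := by
  obtain ⟨D, rfl⟩ := Pic0.mk_surjective x
  obtain ⟨E, hE, hfix⟩ := exists_fixesField_smul_divisor_eq F₀ (D : Divisor L _)
  refine ⟨E, hE, fun σ hσ => ?_⟩
  rw [galois_smul_pic0_def, SemilinearAut.pic0_smul_mk]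
  exact congrArg Pic0.mk (Subtype.ext ((SemilinearAut.coe_degZeroSMulHom _ D).trans (hfix σ hσ)))

/-- Finite sets of classes have a common open stabiliser. -/
theorem exists_fixesField_forall_smul_eq {s : Set (Pic0 L (laurentBaseChange L F₀))}
    (hs : s.Finite) :
    ∃ E : IntermediateField ℚ L, FiniteDimensional ℚ E ∧
      ∀ σ : L ≃ₐ[ℚ] L, FixesField E σ → ∀ x ∈ s, σ • x = x := by
  classical
  choose Ex hExfin hEx using exists_fixesField_smul_pic0_eq (L := L) F₀
  have hfinsup : FiniteDimensional ℚ (⨆ x ∈ hs.toFinset, Ex x : IntermediateField ℚ L) :=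
    IntermediateField.finiteDimensional_iSup_of_finset
  refine ⟨⨆ x ∈ hs.toFinset, Ex x, hfinsup, fun σ hσ x hx => ?_⟩
  exact hEx x σ (hσ.mono (le_iSup₂ (f := fun x _ => Ex x) x (hs.mem_toFinset.2 hx)))

end Generic


/-! ### The Jacobian `J₀(N)(ℚ̄)` -/

section JZero

local notation "Qb" => AlgebraicClosure ℚ

local instance isAlgebraicQbar_cont : Algebra.IsAlgebraic ℚ (AlgebraicClosure ℚ) :=
  AlgebraicClosure.isAlgebraic ℚ
local instance isAlgClosureQbar_cont : IsAlgClosure ℚ (AlgebraicClosure ℚ) :=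
  ⟨inferInstance, inferInstance⟩
local instance normalQbar_cont : Normal ℚ (AlgebraicClosure ℚ) :=
  IsAlgClosure.normal ℚ (AlgebraicClosure ℚ)

variable (N : ℕ) [NeZero N]

local instance hasPrincipalDivisors_cont :
    HasPrincipalDivisors Qb (laurentBaseChange Qb (modularFunctionFieldFull N)) :=
  Fermat.Agent.N4F.A.LevelMaps.hasPrincipalDivisors_bar N

/-- **Cont, places**: every place of `ℚ̄ · F_N` has an open stabiliser. -/
theorem exists_fixing_place (P : Place Qb (modularFunctionFieldBar N)) :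
    ∃ E : IntermediateField ℚ Qb, FiniteDimensional ℚ E ∧
      ∀ σ : Qb ≃ₐ[ℚ] Qb, (∀ e ∈ E, σ e = e) →
        arithmeticGalois (modularFunctionFieldFull N) σ • P = P :=
  exists_fixesField_smul_place_eq (modularFunctionFieldFull N) P

/-- **Cont**: every point of `J₀(N)(ℚ̄)` has an open stabiliser: it is fixed by `Gal(ℚ̄/E)` for
some finite `E/ℚ`. -/
theorem exists_fixing (x : JZero N) :
    ∃ E : IntermediateField ℚ Qb, FiniteDimensional ℚ E ∧
      ∀ σ : Qb ≃ₐ[ℚ] Qb, (∀ e ∈ E, σ e = e) → σ • x = x :=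
  exists_fixesField_smul_pic0_eq (modularFunctionFieldFull N) x

/-- **Cont, finite sets**: finitely many points have a common open stabiliser. -/
theorem exists_fixing_of_finite {s : Set (JZero N)} (hs : s.Finite) :
    ∃ E : IntermediateField ℚ Qb, FiniteDimensional ℚ E ∧
      ∀ σ : Qb ≃ₐ[ℚ] Qb, (∀ e ∈ E, σ e = e) → ∀ x ∈ s, σ • x = x :=
  exists_fixesField_forall_smul_eq (modularFunctionFieldFull N) hs

/-- **Cont, finite sets, Galois level**: the finite level can be taken Galois over `ℚ`. -/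
theorem exists_isGalois_fixing_of_finite {s : Set (JZero N)} (hs : s.Finite) :
    ∃ E : IntermediateField ℚ Qb, FiniteDimensional ℚ E ∧ IsGalois ℚ E ∧
      ∀ σ : Qb ≃ₐ[ℚ] Qb, σ ∈ E.fixingSubgroup → ∀ x ∈ s, σ • x = x := by
  obtain ⟨E, hE, hfix⟩ := exists_fixing_of_finite N hs
  refine ⟨IntermediateField.normalClosure ℚ E Qb, normalClosure.is_finiteDimensional ℚ E Qb,
    IsGalois.normalClosure ℚ E Qb, fun σ hσ => hfix σ fun e he => ?_⟩
  exact (IntermediateField.mem_fixingSubgroup_iff _ σ).1 hσ e (IntermediateField.le_normalClosure E he)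

/-- The stabiliser of a point of `J₀(N)(ℚ̄)` is open in the Krull topology. -/
theorem isOpen_stabilizer (x : JZero N) :
    IsOpen (MulAction.stabilizer (Qb ≃ₐ[ℚ] Qb) x : Set (Qb ≃ₐ[ℚ] Qb)) := by
  obtain ⟨E, hE, hfix⟩ := exists_fixing N x
  refine Subgroup.isOpen_mono (H₁ := E.fixingSubgroup) (fun σ hσ => ?_)
    (IntermediateField.fixingSubgroup_isOpen E)
  exact MulAction.mem_stabilizer_iff.2
    (hfix σ ((IntermediateField.mem_fixingSubgroup_iff _ σ).1 hσ))

/-- **Finite level of the torsion representations**: if `J₀(N)(ℚ̄)[n]` is finite, the Galois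
representation on it factors through a finite level (prelude's
`GaloisFactorsThroughFiniteLevel`). -/
theorem galoisFactorsThroughFiniteLevel_torsionGaloisRep (n : ℕ)
    [Finite (Pic0.torsion Qb (modularFunctionFieldBar N) n)] :
    GaloisFactorsThroughFiniteLevel (JZero.torsionGaloisRep N n) := by
  have hs : (Pic0.torsion Qb (modularFunctionFieldBar N) n : Set (JZero N)).Finite :=
    Set.toFinite _
  obtain ⟨E, hE, hfix⟩ := exists_fixing_of_finite N hs
  refine ⟨E, hE, fun σ hσ => ?_⟩
  refine LinearMap.ext fun x => Subtype.ext ?_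
  rw [JZero.coe_torsionGaloisRep_apply]
  exact hfix σ hσ x x.2

end JZero

end Fermat.Agent.N4F.Continuity
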