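/-
N4-FULL, task S37f: the FORMAL reduction of the frozen statement S37
(`ModularCurve.SpecializationExists` for `JZero N`) to the CORE statement `ESCore`:

  for `ℓ ∤ N` and a valuation subring `A` of `ℚ̄` over `ℓ` there are an abelian group `M`
  (in practice `JZeroC κ_A N`, the Picard group of the special fibre), an additive map
  `R : JZero N →+ M` (reduction) and an automorphism `Φ` of `M` (Frobenius) with
  (i)   `R (τ • x) = R x` for `τ` in the inertia group of `A`,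
  (ii)  `R (σ • x) = Φ (R x)` for every Frobenius element `σ` at `A`,
  (iii) `R (T_ℓ x) = Φ (R x) + ℓ • Φ⁻¹ (R x)`            (Eichler–Shimura congruence),
  (iv)  `R` is injective on prime-to-`ℓ` torsion          (S18).

Given the core, `J' := J ⧸ K` with `K` generated by `τ x - x` (`τ` inertia) and
`σ₀² x - T_ℓ σ₀ x + ℓ x` (`σ₀` one Frobenius), `sp := mk`, `F :=` the map induced by `σ₀`.

Also `es_on_torsion`: the Eichler–Shimura relation and unramifiedness on prime-to-`ℓ` torsion,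
the form used for S29 / S30 / S42.
-/
import Mathlib
import Fermat.Prelude.Def_ModularCurve_HeckeModule
import Fermat.Agent.S54.Frobenius

set_option autoImplicit false

open ModularCurve

noncomputable section

namespace Fermat.Agent.N4F.Core

/-! ### Frobenius elements exist at every valuation subring of `ℚ̄` over `p` -/

section Existence

open scoped Pointwise
open Fermat.Agent.S54

local notation "Qbar" => AlgebraicClosure ℚ
local notation "Γ" => (AlgebraicClosure ℚ ≃ₐ[ℚ] AlgebraicClosure ℚ)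

local instance isAlgebraicQbar_N4F : Algebra.IsAlgebraic ℚ (AlgebraicClosure ℚ) :=
  AlgebraicClosure.isAlgebraic ℚ
local instance isAlgClosureQbar_N4F : IsAlgClosure ℚ (AlgebraicClosure ℚ) :=
  ⟨inferInstance, inferInstance⟩
local instance normalQbar_N4F : Normal ℚ (AlgebraicClosure ℚ) :=
  IsAlgClosure.normal ℚ (AlgebraicClosure ℚ)

/-- **Existence of Frobenius elements at a GIVEN valuation subring** of `ℚ̄` over `p`
(the argument of `Fermat.Agent.S54.exists_isFrobeniusAt`, for an arbitrary `A`). -/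
theorem exists_isFrobeniusAt_of_liesOver (p : ℕ) (hp : p.Prime) (A : ValuationSubring Qbar)
    (hpA' : A.LiesOverPrime p) : ∃ σ : Γ, A.IsFrobeniusAt σ p := by
  have hpA : ((p : ℕ) : Qbar) ∈ A.nonunits := hpA'
  have hBA : ∀ b : integralClosure ℤ Qbar, (b : Qbar) ∈ A :=
    fun b => mem_valuationSubring_of_isIntegral_int A b.2
  let ι : integralClosure ℤ Qbar →+* A :=
    ((integralClosure ℤ Qbar).val : integralClosure ℤ Qbar →+* Qbar).codRestrict A hBA
  let Q : Ideal (integralClosure ℤ Qbar) := (IsLocalRing.maximalIdeal A).comap ι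
  have hQmem : ∀ b : integralClosure ℤ Qbar, b ∈ Q ↔ (b : Qbar) ∈ A.nonunits := by
    intro b
    rw [Ideal.mem_comap, ← ValuationSubring.coe_mem_nonunits_iff]
    rfl
  have hQprime : Q.IsPrime := Ideal.comap_isPrime ι _
  let P : Ideal ℤ := Ideal.span {(p : ℤ)}
  have hPmax : P.IsMaximal :=
    PrincipalIdealRing.isMaximal_of_irreducible
      (Nat.prime_iff_prime_int.mp hp).irreducible
  have hQP : Q.LiesOver P := by
    refine ⟨?_⟩
    refine hPmax.eq_of_le ?_ ?_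
    · intro htop
      have h1 : (1 : ℤ) ∈ Q.under ℤ := htop ▸ Submodule.mem_top
      rw [Ideal.under_def, Ideal.mem_comap, map_one, hQmem] at h1
      have := A.mem_nonunits_iff.mp h1
      simp at this
    · rw [Ideal.span_le, Set.singleton_subset_iff, SetLike.mem_coe, Ideal.under_def,
        Ideal.mem_comap, hQmem]
      simpa using hpA
  have : Fact p.Prime := ⟨hp⟩
  have hchar : CharP (integralClosure ℤ Qbar ⧸ Q) p := by
    rw [CharP.charP_iff_prime_eq_zero hp]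
    have : ((p : integralClosure ℤ Qbar) : integralClosure ℤ Qbar ⧸ Q) = 0 := by
      rw [Ideal.Quotient.eq_zero_iff_mem, hQmem]
      simpa using hpA
    simpa using this
  have hfrob_bij : Function.Bijective (frobenius (integralClosure ℤ Qbar ⧸ Q) p) := by
    refine ⟨frobenius_inj _ p, fun y => ?_⟩
    obtain ⟨b, rfl⟩ := Ideal.Quotient.mk_surjective y
    obtain ⟨z, hz⟩ := IsAlgClosed.exists_pow_nat_eq (b : Qbar) hp.pos
    have hzint : IsIntegral ℤ z := IsIntegral.of_pow hp.pos (hz ▸ b.2)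
    refine ⟨Ideal.Quotient.mk Q ⟨z, hzint⟩, ?_⟩
    rw [frobenius_def, ← map_pow]
    congr 1
    exact Subtype.ext hz
  let φ : (integralClosure ℤ Qbar ⧸ Q) ≃ₐ[ℤ ⧸ P] (integralClosure ℤ Qbar ⧸ Q) :=
    AlgEquiv.ofRingEquiv (f := RingEquiv.ofBijective (frobenius (integralClosure ℤ Qbar ⧸ Q) p) hfrob_bij)
      (by
        intro x
        obtain ⟨n, rfl⟩ := Ideal.Quotient.mk_surjective x
        rw [Ideal.Quotient.algebraMap_mk_of_liesOver]
        simp)
  let _ : TopologicalSpace (integralClosure ℤ Qbar) := ⊥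
  have : DiscreteTopology (integralClosure ℤ Qbar) := ⟨rfl⟩
  have := continuousSMul_integralClosure_Qbar
  have := isInvariant_int_integralClosure_Qbar
  obtain ⟨⟨σ, hσQ⟩, hσφ⟩ := Ideal.Quotient.stabilizerHom_surjective_of_profinite (G := Γ) P Q φ
  have hfrobB : ∀ b : integralClosure ℤ Qbar, σ • b - b ^ p ∈ Q := by
    intro b
    have h1 := DFunLike.congr_fun hσφ (Ideal.Quotient.mk Q b)
    rw [Ideal.Quotient.stabilizerHom_apply] at h1
    have h2 : φ (Ideal.Quotient.mk Q b) = Ideal.Quotient.mk Q (b ^ p) := by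
      simp [φ, frobenius_def]
    rw [h2] at h1
    exact Ideal.Quotient.eq.mp h1
  have hstab : ∀ b : integralClosure ℤ Qbar, b ∈ Q ↔ σ • b ∈ Q := by
    intro b
    have hσQ' : σ • Q = Q := hσQ
    conv_rhs => rw [← hσQ']
    exact Ideal.smul_mem_pointwise_smul_iff.symm
  have hfrob : ∀ b : Qbar, IsIntegral ℤ b → σ b - b ^ p ∈ A.nonunits := by
    intro b hb
    have := (hQmem _).mp (hfrobB ⟨b, hb⟩)
    exact this
  have hσA : ∀ b : Qbar, IsIntegral ℤ b → (b ∈ A.nonunits ↔ σ b ∈ A.nonunits) := by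
    intro b hb
    have h1 := hstab ⟨b, hb⟩
    rw [hQmem, hQmem] at h1
    exact h1
  have hσD : σ ∈ A.decompositionSubgroup ℚ :=
    mem_decompositionSubgroup_of_forall_integral A hp hpA isAlgebraic_int_Qbar σ hσA
  exact ⟨σ, isFrobeniusAt_of_forall_integral A hp hpA isAlgebraic_int_Qbar σ hσD hfrob⟩

end Existence

/-! ### Two Frobenius elements differ by inertia -/

section Inertia

variable {K L : Type*} [Field K] [Field L] [Algebra K L]

theorem mem_inertiaSubgroupIn_iff (A : ValuationSubring L) (τ : L ≃ₐ[K] L) :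
    τ ∈ A.inertiaSubgroupIn K ↔
      ∃ hτ : τ ∈ A.decompositionSubgroup K, ∀ x : IsLocalRing.ResidueField A,
        (⟨τ, hτ⟩ : A.decompositionSubgroup K) • x = x := by
  unfold ValuationSubring.inertiaSubgroupIn
  constructor
  · rintro ⟨⟨τ', hτ'⟩, hmem, rfl⟩
    refine ⟨hτ', fun x => ?_⟩
    have h := hmem
    rw [SetLike.mem_coe, ValuationSubring.inertiaSubgroup, MonoidHom.mem_ker] at h
    have := DFunLike.congr_fun h x
    simpa using this
  · rintro ⟨hτ, h⟩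
    refine ⟨⟨τ, hτ⟩, ?_, rfl⟩
    rw [SetLike.mem_coe, ValuationSubring.inertiaSubgroup, MonoidHom.mem_ker]
    ext x
    exact h x

/-- Two Frobenius elements at `A` differ by an element of the inertia group. -/
theorem inv_mul_mem_inertiaSubgroupIn {A : ValuationSubring L} {σ₀ σ : L ≃ₐ[K] L} {q : ℕ}
    (h₀ : A.IsFrobeniusAt σ₀ q) (h : A.IsFrobeniusAt σ q) :
    σ₀⁻¹ * σ ∈ A.inertiaSubgroupIn K := by
  rw [mem_inertiaSubgroupIn_iff]
  have hm₀ := h₀.mem_decompositionSubgroup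
  have hm := h.mem_decompositionSubgroup
  refine ⟨mul_mem (inv_mem hm₀) hm, fun x => ?_⟩
  have e : (⟨σ₀⁻¹ * σ, mul_mem (inv_mem hm₀) hm⟩ : A.decompositionSubgroup K) =
      (⟨σ₀, hm₀⟩ : A.decompositionSubgroup K)⁻¹ * ⟨σ, hm⟩ := rfl
  rw [e, mul_smul, h.smul_residue_eq, ← h₀.smul_residue_eq, inv_smul_smul]

/-- Conjugating an inertia element by an element of the decomposition group stays in inertia. -/
theorem conj_mem_inertiaSubgroupIn {A : ValuationSubring L} {σ τ : L ≃ₐ[K] L}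
    (hσ : σ ∈ A.decompositionSubgroup K) (hτ : τ ∈ A.inertiaSubgroupIn K) :
    σ * τ * σ⁻¹ ∈ A.inertiaSubgroupIn K := by
  rw [mem_inertiaSubgroupIn_iff] at hτ ⊢
  obtain ⟨hτD, hτx⟩ := hτ
  refine ⟨mul_mem (mul_mem hσ hτD) (inv_mem hσ), fun x => ?_⟩
  have e : (⟨σ * τ * σ⁻¹, mul_mem (mul_mem hσ hτD) (inv_mem hσ)⟩ : A.decompositionSubgroup K) =
      (⟨σ, hσ⟩ : A.decompositionSubgroup K) * ⟨τ, hτD⟩ * (⟨σ, hσ⟩ : A.decompositionSubgroup K)⁻¹ :=
    rfl
  rw [e, mul_smul, mul_smul, hτx, smul_inv_smul]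

end Inertia

/-! ### The abstract quotient construction -/

section Abstract

variable {K L : Type*} [Field K] [Field L] [Algebra K L]
variable {J : Type} [AddCommGroup J] [Module HeckeAlg J] [DistribMulAction (L ≃ₐ[K] L) J]
  [SMulCommClass (L ≃ₐ[K] L) HeckeAlg J]

/-- The generators of the kernel: `τ x - x` for `τ` in the inertia group, and
`σ₀² x - T σ₀ x + ℓ x`. -/
def kerGens (A : ValuationSubring L) (T : HeckeAlg) (ℓ : ℕ) (σ₀ : L ≃ₐ[K] L) : Set J :=
  {y | ∃ τ ∈ A.inertiaSubgroupIn K, ∃ x : J, y = τ • x - x} ∪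
    {y | ∃ x : J, y = σ₀ • σ₀ • x - T • (σ₀ • x) + ℓ • x}

theorem smul_mem_kerGens (A : ValuationSubring L) (T : HeckeAlg) (ℓ : ℕ) (σ₀ : L ≃ₐ[K] L)
    (t : HeckeAlg) {y : J} (hy : y ∈ kerGens (J := J) A T ℓ σ₀) :
    t • y ∈ kerGens (J := J) A T ℓ σ₀ := by
  haveI : SMulCommClass HeckeAlg (L ≃ₐ[K] L) J := SMulCommClass.symm _ _ _
  rcases hy with ⟨τ, hτ, x, rfl⟩ | ⟨x, rfl⟩
  · refine Or.inl ⟨τ, hτ, t • x, ?_⟩
    rw [smul_sub, smul_comm t τ x]
  · refine Or.inr ⟨t • x, ?_⟩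
    rw [smul_add, smul_sub, smul_comm t σ₀ (σ₀ • x), smul_comm t σ₀ x, smul_comm t T (σ₀ • x),
      smul_comm t σ₀ x, smul_comm t ℓ x]

theorem galois_smul_mem_kerGens (A : ValuationSubring L) (T : HeckeAlg) (ℓ : ℕ)
    (σ₀ : L ≃ₐ[K] L) (hσ₀ : σ₀ ∈ A.decompositionSubgroup K) {y : J}
    (hy : y ∈ kerGens (J := J) A T ℓ σ₀) :
    σ₀ • y ∈ kerGens (J := J) A T ℓ σ₀ := by
  rcases hy with ⟨τ, hτ, x, rfl⟩ | ⟨x, rfl⟩
  · refine Or.inl ⟨σ₀ * τ * σ₀⁻¹, conj_mem_inertiaSubgroupIn hσ₀ hτ, σ₀ • x, ?_⟩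
    rw [smul_sub, mul_smul, mul_smul, inv_smul_smul]
  · refine Or.inr ⟨σ₀ • x, ?_⟩
    rw [smul_add, smul_sub, smul_comm σ₀ T (σ₀ • x), smul_comm σ₀ ℓ x]

theorem smul_mem_closure_kerGens (A : ValuationSubring L) (T : HeckeAlg) (ℓ : ℕ)
    (σ₀ : L ≃ₐ[K] L) (t : HeckeAlg) {y : J}
    (hy : y ∈ AddSubgroup.closure (kerGens (J := J) A T ℓ σ₀)) :
    t • y ∈ AddSubgroup.closure (kerGens (J := J) A T ℓ σ₀) := by
  induction hy using AddSubgroup.closure_induction with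
  | mem z hz => exact AddSubgroup.subset_closure (smul_mem_kerGens A T ℓ σ₀ t hz)
  | zero => rw [smul_zero]; exact AddSubgroup.zero_mem _
  | add a b _ _ ha hb => rw [smul_add]; exact AddSubgroup.add_mem _ ha hb
  | neg a _ ha => rw [smul_neg]; exact AddSubgroup.neg_mem _ ha

/-- The kernel `K`: the additive subgroup generated by `kerGens`, as a `HeckeAlg`-submodule. -/
def kerSub (A : ValuationSubring L) (T : HeckeAlg) (ℓ : ℕ) (σ₀ : L ≃ₐ[K] L) :
    Submodule HeckeAlg J where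
  carrier := AddSubgroup.closure (kerGens (J := J) A T ℓ σ₀)
  add_mem' := fun ha hb => AddSubgroup.add_mem _ ha hb
  zero_mem' := AddSubgroup.zero_mem _
  smul_mem' := fun t _ hy => smul_mem_closure_kerGens A T ℓ σ₀ t hy

theorem mem_kerSub_iff (A : ValuationSubring L) (T : HeckeAlg) (ℓ : ℕ) (σ₀ : L ≃ₐ[K] L) (y : J) :
    y ∈ kerSub (J := J) A T ℓ σ₀ ↔ y ∈ AddSubgroup.closure (kerGens (J := J) A T ℓ σ₀) :=
  Iff.rfl

theorem mem_kerSub_of_mem_kerGens (A : ValuationSubring L) (T : HeckeAlg) (ℓ : ℕ)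
    (σ₀ : L ≃ₐ[K] L) {y : J} (hy : y ∈ kerGens (J := J) A T ℓ σ₀) :
    y ∈ kerSub (J := J) A T ℓ σ₀ :=
  AddSubgroup.subset_closure hy

theorem galois_smul_mem_kerSub (A : ValuationSubring L) (T : HeckeAlg) (ℓ : ℕ)
    (σ₀ : L ≃ₐ[K] L) (hσ₀ : σ₀ ∈ A.decompositionSubgroup K) {y : J}
    (hy : y ∈ kerSub (J := J) A T ℓ σ₀) : σ₀ • y ∈ kerSub (J := J) A T ℓ σ₀ := by
  rw [mem_kerSub_iff] at hy ⊢
  induction hy using AddSubgroup.closure_induction with
  | mem z hz => exact AddSubgroup.subset_closure (galois_smul_mem_kerGens A T ℓ σ₀ hσ₀ hz)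
  | zero => rw [smul_zero]; exact AddSubgroup.zero_mem _
  | add a b _ _ ha hb => rw [smul_add]; exact AddSubgroup.add_mem _ ha hb
  | neg a _ ha => rw [smul_neg]; exact AddSubgroup.neg_mem _ ha

/-- An additive map killing the generators kills the kernel. -/
theorem map_eq_zero_of_mem_kerSub {M : Type*} [AddCommGroup M] (R : J →+ M)
    (A : ValuationSubring L) (T : HeckeAlg) (ℓ : ℕ) (σ₀ : L ≃ₐ[K] L)
    (hR : ∀ y ∈ kerGens (J := J) A T ℓ σ₀, R y = 0) {y : J}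
    (hy : y ∈ kerSub (J := J) A T ℓ σ₀) : R y = 0 := by
  rw [mem_kerSub_iff] at hy
  induction hy using AddSubgroup.closure_induction with
  | mem z hz => exact hR z hz
  | zero => exact map_zero R
  | add a b _ _ ha hb => rw [map_add, ha, hb, add_zero]
  | neg a _ ha => rw [map_neg, ha, neg_zero]

/-- **The abstract reduction**: from a reduction map `R` with the four properties (i)–(iv) to a
specialization datum in the sense of the prelude. -/
theorem exists_specialization_of_core (p : ℕ) (A : ValuationSubring L) (ℓ : ℕ) (hℓ : ℓ.Prime)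
    (hℓp : ¬ ℓ ∣ p) (σ₀ : L ≃ₐ[K] L) (hσ₀ : A.IsFrobeniusAt σ₀ ℓ)
    {M : Type*} [AddCommGroup M] (R : J →+ M) (Φ : M ≃+ M)
    (h1 : ∀ τ ∈ A.inertiaSubgroupIn K, ∀ x : J, R (τ • x) = R x)
    (h2 : ∀ σ : L ≃ₐ[K] L, A.IsFrobeniusAt σ ℓ → ∀ x : J, R (σ • x) = Φ (R x))
    (h3 : ∀ x : J, R (heckeGen ⟨ℓ, hℓ⟩ • x) = Φ (R x) + ℓ • Φ.symm (R x))
    (h4 : ∀ m : ℕ, ¬ ℓ ∣ m → ∀ x : J, m • x = 0 → R x = 0 → x = 0) :
    ∃ (J' : Type) (_ : AddCommGroup J') (_ : Module HeckeAlg J') (sp : J →+ J') (F : J' →+ J'),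
      IsSpecialization (K := K) p J J' A ℓ sp F ∧ SpecialFibreRelation J' ℓ hℓ F := by
  classical
  set T : HeckeAlg := heckeGen ⟨ℓ, hℓ⟩ with hT
  have hσ₀D : σ₀ ∈ A.decompositionSubgroup K := hσ₀.mem_decompositionSubgroup
  set Ksub : Submodule HeckeAlg J := kerSub (J := J) A T ℓ σ₀ with hK
  -- `R` kills the kernel
  have hRgen : ∀ y ∈ kerGens (J := J) A T ℓ σ₀, R y = 0 := by
    rintro y (⟨τ, hτ, x, rfl⟩ | ⟨x, rfl⟩)
    · rw [map_sub, h1 τ hτ x, sub_self]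
    · rw [map_add, map_sub, h2 σ₀ hσ₀, h2 σ₀ hσ₀, h3, h2 σ₀ hσ₀, map_nsmul,
        AddEquiv.symm_apply_apply]
      abel
  have hRK : ∀ y ∈ Ksub, R y = 0 := fun y hy =>
    map_eq_zero_of_mem_kerSub R A T ℓ σ₀ hRgen hy
  -- the linear map induced by `σ₀`
  let σlin : J →ₗ[HeckeAlg] J := DistribSMul.toLinearMap HeckeAlg J σ₀
  have hσlin : ∀ x : J, σlin x = σ₀ • x := fun x => rfl
  have hle : Ksub ≤ Ksub.comap σlin := fun y hy => galois_smul_mem_kerSub A T ℓ σ₀ hσ₀D hy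
  let Flin : (J ⧸ Ksub) →ₗ[HeckeAlg] (J ⧸ Ksub) := Ksub.mapQ Ksub σlin hle
  have hF : ∀ x : J, Flin (Ksub.mkQ x) = Ksub.mkQ (σ₀ • x) := fun x => rfl
  refine ⟨J ⧸ Ksub, inferInstance, inferInstance, Ksub.mkQ.toAddMonoidHom, Flin.toAddMonoidHom,
    ⟨?_, ?_, ?_, ?_⟩, ?_⟩
  · intro t x
    exact map_smul Ksub.mkQ t x
  · intro τ hτ x
    show Ksub.mkQ (τ • x) = Ksub.mkQ x
    rw [← sub_eq_zero, ← map_sub, Submodule.mkQ_apply, Submodule.Quotient.mk_eq_zero]
    exact mem_kerSub_of_mem_kerGens A T ℓ σ₀ (Or.inl ⟨τ, hτ, x, rfl⟩)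
  · intro σ hσ x
    show Ksub.mkQ (σ • x) = Flin (Ksub.mkQ x)
    rw [hF, ← sub_eq_zero, ← map_sub, Submodule.mkQ_apply, Submodule.Quotient.mk_eq_zero]
    have hτ := inv_mul_mem_inertiaSubgroupIn hσ₀ hσ
    have e : σ • x - σ₀ • x = σ₀ • ((σ₀⁻¹ * σ) • x - x) := by
      rw [smul_sub, ← mul_smul, mul_inv_cancel_left]
    rw [e]
    exact galois_smul_mem_kerSub A T ℓ σ₀ hσ₀D
      (mem_kerSub_of_mem_kerGens A T ℓ σ₀ (Or.inl ⟨σ₀⁻¹ * σ, hτ, x, rfl⟩))
  · rintro x ⟨n, hn⟩ hx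
    have hxK : x ∈ Ksub := by
      have : Ksub.mkQ x = 0 := hx
      rwa [Submodule.mkQ_apply, Submodule.Quotient.mk_eq_zero] at this
    refine h4 (p ^ n) (fun h => hℓp (hℓ.dvd_of_dvd_pow h)) x hn (hRK x hxK)
  · intro y
    obtain ⟨x, rfl⟩ := Ksub.mkQ_surjective y
    show Flin (Flin (Ksub.mkQ x)) - heckeGen ⟨ℓ, hℓ⟩ • Flin (Ksub.mkQ x) + ℓ • Ksub.mkQ x = 0
    rw [hF, hF, ← map_smul, ← map_nsmul, ← map_sub, ← map_add, Submodule.mkQ_apply,
      Submodule.Quotient.mk_eq_zero]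
    exact mem_kerSub_of_mem_kerGens A T ℓ σ₀ (Or.inr ⟨x, rfl⟩)

end Abstract

section AbstractTorsion

variable {K L : Type*} [Field K] [Field L] [Algebra K L]
variable {J : Type*} [AddCommGroup J] [DistribMulAction (L ≃ₐ[K] L) J]

/-- The consequences of the core on prime-to-`ℓ` torsion: unramifiedness and the
Eichler–Shimura relation (for an arbitrary additive endomorphism `Tl` in the role of `T_ℓ`). -/
theorem es_on_torsion_of_core (A : ValuationSubring L) (ℓ : ℕ) (Tl : J →+ J)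
    {M : Type*} [AddCommGroup M] (R : J →+ M) (Φ : M ≃+ M)
    (h1 : ∀ τ ∈ A.inertiaSubgroupIn K, ∀ x : J, R (τ • x) = R x)
    (h2 : ∀ σ : L ≃ₐ[K] L, A.IsFrobeniusAt σ ℓ → ∀ x : J, R (σ • x) = Φ (R x))
    (h3 : ∀ x : J, R (Tl x) = Φ (R x) + ℓ • Φ.symm (R x))
    (h4 : ∀ m : ℕ, ¬ ℓ ∣ m → ∀ x : J, m • x = 0 → R x = 0 → x = 0)
    (m : ℕ) (hm : ¬ ℓ ∣ m) (x : J) (hx : m • x = 0) :
    (∀ τ ∈ A.inertiaSubgroupIn K, τ • x = x) ∧
      ∀ σ : L ≃ₐ[K] L, A.IsFrobeniusAt σ ℓ → σ • σ • x - Tl (σ • x) + ℓ • x = 0 := by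
  refine ⟨fun τ hτ => ?_, fun σ hσ => ?_⟩
  · rw [← sub_eq_zero]
    refine h4 m hm _ ?_ ?_
    · rw [smul_sub, smul_comm m τ x, hx, smul_zero, sub_self]
    · rw [map_sub, h1 τ hτ x, sub_self]
  · refine h4 m hm _ ?_ ?_
    · rw [smul_add, smul_sub, smul_comm m σ (σ • x), smul_comm m σ x, ← map_nsmul,
        smul_comm m σ x, smul_comm m ℓ x, hx, smul_zero, smul_zero, smul_zero, map_zero, sub_self,
        add_zero]
    · rw [map_add, map_sub, h2 σ hσ, h2 σ hσ, h3, h2 σ hσ, map_nsmul, AddEquiv.symm_apply_apply]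
      abel

end AbstractTorsion


/-! ### The core statement for `JZero N` and the frozen S37 -/

section JZero

local notation "Qbar" => AlgebraicClosure ℚ
local notation "Γ" => (AlgebraicClosure ℚ ≃ₐ[ℚ] AlgebraicClosure ℚ)

/-- **The core statement** (output of blocks A1, C, E and S18): a reduction map `R` from `JZero N`
to an abelian group `M` (in practice `JZeroC κ_A N`) and a Frobenius automorphism `Φ` of `M` such
that `R` is inertia-invariant, intertwines Frobenius elements with `Φ`, satisfies the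
Eichler–Shimura congruence `R ∘ T_ℓ = (Φ + ℓ Φ⁻¹) ∘ R` for the prelude's operator
`heckeOperatorBar N ℓ`, and is injective on prime-to-`ℓ` torsion. -/
def ESCore (N : ℕ) [NeZero N] (ℓ : ℕ) (hℓ : ℓ.Prime) (A : ValuationSubring Qbar) : Prop :=
  ∃ (M : Type) (_ : AddCommGroup M) (R : JZero N →+ M) (Φ : M ≃+ M),
    (∀ τ ∈ A.inertiaSubgroupIn ℚ, ∀ x : JZero N, R (τ • x) = R x) ∧
    (∀ σ : Γ, A.IsFrobeniusAt σ ℓ → ∀ x : JZero N, R (σ • x) = Φ (R x)) ∧
    (∀ x : JZero N, R (heckeOperatorBar N ⟨ℓ, hℓ⟩ x) = Φ (R x) + ℓ • Φ.symm (R x)) ∧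
    (∀ m : ℕ, ¬ ℓ ∣ m → ∀ x : JZero N, m • x = 0 → R x = 0 → x = 0)

/-- **S37 from the core.**  The conclusion is verbatim the frozen statement S37. -/
theorem specializationExists_of_core (N p : ℕ) [NeZero N]
    (hcomm : ModularCurve.HeckeOperatorsCommuteBar N)
    (hcore : ∀ (ℓ : ℕ) (hℓ : ℓ.Prime), ¬ ℓ ∣ N → ∀ A : ValuationSubring Qbar,
      A.LiesOverPrime ℓ → ESCore N ℓ hℓ A) :
    letI := ModularCurve.heckeModuleBar N
    ∀ (_ : SMulCommClass (AlgebraicClosure ℚ ≃ₐ[ℚ] AlgebraicClosure ℚ) ModularCurve.HeckeAlg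
      (ModularCurve.JZero N)),
      ModularCurve.SpecializationExists (K := ℚ) (L := AlgebraicClosure ℚ) N p
        (ModularCurve.JZero N) := by
  letI := ModularCurve.heckeModuleBar N
  intro hSMC ℓ hℓ hℓNp A hA
  have hℓN : ¬ ℓ ∣ N := fun h => hℓNp (Dvd.dvd.mul_right h p)
  have hℓp : ¬ ℓ ∣ p := fun h => hℓNp (Dvd.dvd.mul_left h N)
  obtain ⟨M, _, R, Φ, h1, h2, h3, h4⟩ := hcore ℓ hℓ hℓN A hA
  obtain ⟨σ₀, hσ₀⟩ := exists_isFrobeniusAt_of_liesOver ℓ hℓ A hA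
  refine exists_specialization_of_core (K := ℚ) (L := Qbar) (J := JZero N) p A ℓ hℓ hℓp σ₀ hσ₀
    R Φ h1 h2 (fun x => ?_) h4
  rw [heckeModuleBar_heckeGen_smul hcomm]
  exact h3 x

/-- **Unramifiedness and the Eichler–Shimura relation on prime-to-`ℓ` torsion** of `JZero N`,
from the core; stated with the operator `heckeOperatorBar N ℓ` (no module structure, no
commutativity hypothesis): the form used for S29 / S30 / S42. -/
theorem es_on_torsion (N : ℕ) [NeZero N] (ℓ : ℕ) (hℓ : ℓ.Prime) (A : ValuationSubring Qbar)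
    (hcore : ESCore N ℓ hℓ A) (m : ℕ) (hm : ¬ ℓ ∣ m) (x : JZero N) (hx : m • x = 0) :
    (∀ τ ∈ A.inertiaSubgroupIn ℚ, τ • x = x) ∧
      ∀ σ : Γ, A.IsFrobeniusAt σ ℓ →
        σ • σ • x - heckeOperatorBar N ⟨ℓ, hℓ⟩ (σ • x) + ℓ • x = 0 := by
  obtain ⟨M, _, R, Φ, h1, h2, h3, h4⟩ := hcore
  exact es_on_torsion_of_core (K := ℚ) (L := Qbar) (J := JZero N) A ℓ
    (heckeOperatorBar N ⟨ℓ, hℓ⟩ : JZero N →ₗ[ℤ] JZero N).toAddMonoidHom R Φ h1 h2 h3 h4 m hm x hx

end JZero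

end Fermat.Agent.N4F.Core
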