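/-
N4-FULL, S37f addendum (requested by block E, helper15's torsion shortcut "E-tors"):
the core statement with the Eichler–Shimura congruence (iii) required ONLY ON TORSION points,
and the statement `ESOnTorsion` that S29 / S30 / S42 actually consume.

`ESCore → ESCoreTors → ESOnTorsion`.
-/
import Mathlib
import Fermat.Agent.N4F.Core

set_option autoImplicit false

open ModularCurve AlgebraicCurve

namespace Fermat.Agent.N4F.Core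

local notation "Qbar" => AlgebraicClosure ℚ
local notation "Γ" => (AlgebraicClosure ℚ ≃ₐ[ℚ] AlgebraicClosure ℚ)

section AbstractTorsion

variable {K L : Type*} [Field K] [Field L] [Algebra K L]
variable {J : Type*} [AddCommGroup J] [DistribMulAction (L ≃ₐ[K] L) J]

/-- `es_on_torsion_of_core` with the congruence (iii) only assumed on torsion points. -/
theorem es_on_torsion_of_coreTors (A : ValuationSubring L) (ℓ : ℕ) (Tl : J →+ J)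
    {M : Type*} [AddCommGroup M] (R : J →+ M) (Φ : M ≃+ M)
    (h1 : ∀ τ ∈ A.inertiaSubgroupIn K, ∀ x : J, R (τ • x) = R x)
    (h2 : ∀ σ : L ≃ₐ[K] L, A.IsFrobeniusAt σ ℓ → ∀ x : J, R (σ • x) = Φ (R x))
    (h3 : ∀ x : J, (∃ m : ℕ, m ≠ 0 ∧ m • x = 0) → R (Tl x) = Φ (R x) + ℓ • Φ.symm (R x))
    (h4 : ∀ m : ℕ, ¬ ℓ ∣ m → ∀ x : J, m • x = 0 → R x = 0 → x = 0)
    (m : ℕ) (hm : ¬ ℓ ∣ m) (x : J) (hx : m • x = 0) :
    (∀ τ ∈ A.inertiaSubgroupIn K, τ • x = x) ∧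
      ∀ σ : L ≃ₐ[K] L, A.IsFrobeniusAt σ ℓ → σ • σ • x - Tl (σ • x) + ℓ • x = 0 := by
  have hm0 : m ≠ 0 := fun h => hm (h ▸ dvd_zero ℓ)
  refine ⟨fun τ hτ => ?_, fun σ hσ => ?_⟩
  · rw [← sub_eq_zero]
    refine h4 m hm _ ?_ ?_
    · rw [smul_sub, smul_comm m τ x, hx, smul_zero, sub_self]
    · rw [map_sub, h1 τ hτ x, sub_self]
  · have hσx : m • (σ • x) = 0 := by rw [smul_comm m σ x, hx, smul_zero]
    refine h4 m hm _ ?_ ?_
    · rw [smul_add, smul_sub, smul_comm m σ (σ • x), smul_comm m σ x, ← map_nsmul,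
        smul_comm m σ x, smul_comm m ℓ x, hx, smul_zero, smul_zero, smul_zero, map_zero, sub_self,
        add_zero]
    · rw [map_add, map_sub, h2 σ hσ, h2 σ hσ, h3 (σ • x) ⟨m, hm0, hσx⟩, h2 σ hσ, map_nsmul,
        AddEquiv.symm_apply_apply]
      abel

end AbstractTorsion

/-- **The core statement, torsion form**: as `ESCore`, but the Eichler–Shimura congruence
`R ∘ T_ℓ = (Φ + ℓ Φ⁻¹) ∘ R` is only required at torsion points. -/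
def ESCoreTors (N : ℕ) [NeZero N] (ℓ : ℕ) (hℓ : ℓ.Prime) (A : ValuationSubring Qbar) : Prop :=
  ∃ (M : Type) (_ : AddCommGroup M) (R : JZero N →+ M) (Φ : M ≃+ M),
    (∀ τ ∈ A.inertiaSubgroupIn ℚ, ∀ x : JZero N, R (τ • x) = R x) ∧
    (∀ σ : Γ, A.IsFrobeniusAt σ ℓ → ∀ x : JZero N, R (σ • x) = Φ (R x)) ∧
    (∀ x : JZero N, (∃ m : ℕ, m ≠ 0 ∧ m • x = 0) →
      R (heckeOperatorBar N ⟨ℓ, hℓ⟩ x) = Φ (R x) + ℓ • Φ.symm (R x)) ∧
    (∀ m : ℕ, ¬ ℓ ∣ m → ∀ x : JZero N, m • x = 0 → R x = 0 → x = 0)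

theorem ESCore.tors {N : ℕ} [NeZero N] {ℓ : ℕ} {hℓ : ℓ.Prime} {A : ValuationSubring Qbar}
    (h : ESCore N ℓ hℓ A) : ESCoreTors N ℓ hℓ A := by
  obtain ⟨M, i, R, Φ, h1, h2, h3, h4⟩ := h
  exact ⟨M, i, R, Φ, h1, h2, fun x _ => h3 x, h4⟩

/-- **What S29 / S30 / S42 consume**: on prime-to-`ℓ` torsion, inertia at `A` acts trivially and
every Frobenius element `σ` at `A` satisfies `σ² - T_ℓ σ + ℓ = 0`. -/
def ESOnTorsion (N : ℕ) [NeZero N] (ℓ : ℕ) (hℓ : ℓ.Prime) (A : ValuationSubring Qbar) : Prop :=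
  ∀ m : ℕ, ¬ ℓ ∣ m → ∀ x : JZero N, m • x = 0 →
    (∀ τ ∈ A.inertiaSubgroupIn ℚ, τ • x = x) ∧
      ∀ σ : Γ, A.IsFrobeniusAt σ ℓ →
        σ • σ • x - heckeOperatorBar N ⟨ℓ, hℓ⟩ (σ • x) + ℓ • x = 0

/-- `es_on_torsion` from the torsion form of the core. -/
theorem es_on_torsion' (N : ℕ) [NeZero N] (ℓ : ℕ) (hℓ : ℓ.Prime) (A : ValuationSubring Qbar)
    (hcore : ESCoreTors N ℓ hℓ A) (m : ℕ) (hm : ¬ ℓ ∣ m) (x : JZero N) (hx : m • x = 0) :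
    (∀ τ ∈ A.inertiaSubgroupIn ℚ, τ • x = x) ∧
      ∀ σ : Γ, A.IsFrobeniusAt σ ℓ →
        σ • σ • x - heckeOperatorBar N ⟨ℓ, hℓ⟩ (σ • x) + ℓ • x = 0 := by
  obtain ⟨M, _, R, Φ, h1, h2, h3, h4⟩ := hcore
  exact es_on_torsion_of_coreTors (K := ℚ) (L := Qbar) (J := JZero N) A ℓ
    (heckeOperatorBar N ⟨ℓ, hℓ⟩ : JZero N →ₗ[ℤ] JZero N).toAddMonoidHom R Φ h1 h2 h3 h4 m hm x hx

theorem ESCoreTors.esOnTorsion {N : ℕ} [NeZero N] {ℓ : ℕ} {hℓ : ℓ.Prime}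
    {A : ValuationSubring Qbar} (h : ESCoreTors N ℓ hℓ A) : ESOnTorsion N ℓ hℓ A :=
  fun m hm x hx => es_on_torsion' N ℓ hℓ A h m hm x hx

theorem ESCore.esOnTorsion {N : ℕ} [NeZero N] {ℓ : ℕ} {hℓ : ℓ.Prime}
    {A : ValuationSubring Qbar} (h : ESCore N ℓ hℓ A) : ESOnTorsion N ℓ hℓ A :=
  h.tors.esOnTorsion

end Fermat.Agent.N4F.Core
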