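/-
N4-FULL, row E7: ASSEMBLY of `Core.ESCore` / `Core.ESCoreTors` for `JZero N` from the outputs of
block C (a place reduction `r` with the prelude's spec, Galois-equivariant: (T2), (T3), (T4)),
block E (the Eichler–Shimura congruence, divisor form or torsion form) and S18 (injectivity of the
reduction on prime-to-`ℓ` torsion), with `R := reductionPic0Along r hr hgen` and
`Φ :=` the action on `Pic⁰` of the coefficientwise `ℓ`-power Frobenius.

Clauses (i), (ii): `C/Galois.exists_frobenius_core` (helper22).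
Clause (iii): `E/TheoremEPic0.reductionPic0Along_heckeOperatorBar` (helper26), or the torsion form.
Clause (iv): the hypothesis `hinj` (S18 for the place map `r`).
-/
import Mathlib
import Fermat.Agent.N4F.CoreTors
import Fermat.Agent.N4F.C.Galois
import Fermat.Agent.N4F.E.TheoremEPic0

set_option autoImplicit false

open AlgebraicCurve ModularCurve

namespace Fermat.Agent.N4F.ESAssembly

open Fermat.Agent.N4F.C Fermat.Agent.N4F.C.CoeffAut Fermat.Agent.N4F.C.Galois
open Fermat.Agent.N4F.A.LevelMaps Fermat.Agent.N4F.A.HeckeInputs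
  Fermat.Agent.N4F.A.HeckeInputsFinal

local notation "Γ" => (AlgebraicClosure ℚ ≃ₐ[ℚ] AlgebraicClosure ℚ)

variable (N : ℕ) [NeZero N] {ℓ : ℕ} (hℓ : ℓ.Prime) {A : ValuationSubring Qb}
  (hA : A.LiesOverPrime ℓ)
  {r : Place Qb (Fb N) → Place (Kap A) (Ft A N)}
  (hr : IsPlaceReductionModL A N r)
  (hgen : PrincipalGeneratedByIntegral A (IsLocalRing.residue A) N)

include hA

/-- **`ESCoreTors` from its four clauses**, for the reduction map of a place reduction `r`:
* `hT4` (block C, (T4)): `r` is equivariant under the decomposition group of `A`;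
* `hES` (block E, torsion form): the Eichler–Shimura congruence on torsion classes, for the
  coefficientwise Frobenius `φ`;
* `hinj` (S18 for `r`): injectivity on prime-to-`ℓ` torsion. -/
theorem esCoreTors_of_parts
    (hT4 : ∀ (σ : A.decompositionSubgroup ℚ) P,
      r (gal N (σ : Γ) • P) = coeffAut (Kap A) N (resAut ℚ A σ) • r P)
    (hES : ∀ φ : Kap A ≃+* Kap A, (∀ x, φ x = x ^ ℓ) → ∀ x : JZero N,
      (∃ m : ℕ, m ≠ 0 ∧ m • x = 0) →
        reductionPic0Along r hr hgen (heckeOperatorBar N ⟨ℓ, hℓ⟩ x) =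
          coeffAut (Kap A) N φ • reductionPic0Along r hr hgen x +
            ℓ • ((coeffAut (Kap A) N φ)⁻¹ • reductionPic0Along r hr hgen x))
    (hinj : ∀ m : ℕ, ¬ ℓ ∣ m → ∀ x : JZero N, m • x = 0 →
      reductionPic0Along r hr hgen x = 0 → x = 0) :
    Core.ESCoreTors N ℓ hℓ A := by
  obtain ⟨φ, hφ, h1, h2⟩ := exists_frobenius_core hr hgen hT4 hℓ hA
  exact ⟨JZeroC (Kap A) N, inferInstance, reductionPic0Along r hr hgen,
    pic0AddEquiv (coeffAut (Kap A) N φ), h1, h2, fun x hx => hES φ hφ x hx, hinj⟩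

/-- **`ESCore` from its four clauses**; the congruence (iii) in DIVISOR form (output of
`E/TheoremE.mapDomain_correspondence`). -/
theorem esCore_of_parts
    (hT4 : ∀ (σ : A.decompositionSubgroup ℚ) P,
      r (gal N (σ : Γ) • P) = coeffAut (Kap A) N (resAut ℚ A σ) • r P)
    (hdiv : ∀ φ : Kap A ≃+* Kap A, (∀ x, φ x = x ^ ℓ) →
      haveI : NeZero ℓ := ⟨hℓ.ne_zero⟩
      haveI := hasPrincipalDivisors_bar (N * ℓ)
      ∀ D : Divisor Qb (Fb N),
        Finsupp.mapDomain r
            (heckeDivBar (heckeAlphaBarIntegral N ℓ) (heckeBetaBarIntegral N ℓ) D) =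
          coeffAut (Kap A) N φ • Finsupp.mapDomain r D +
            (ℓ : ℤ) • ((coeffAut (Kap A) N φ)⁻¹ • Finsupp.mapDomain r D))
    (hinj : ∀ m : ℕ, ¬ ℓ ∣ m → ∀ x : JZero N, m • x = 0 →
      reductionPic0Along r hr hgen x = 0 → x = 0) :
    Core.ESCore N ℓ hℓ A := by
  obtain ⟨φ, hφ, h1, h2⟩ := exists_frobenius_core hr hgen hT4 hℓ hA
  refine ⟨JZeroC (Kap A) N, inferInstance, reductionPic0Along r hr hgen,
    pic0AddEquiv (coeffAut (Kap A) N φ), h1, h2, fun x => ?_, hinj⟩
  exact Fermat.Agent.N4F.E.TheoremEPic0.reductionPic0Along_heckeOperatorBar N ℓ hℓ r hr hgen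
    (coeffAut (Kap A) N φ) (hdiv φ hφ) x

omit hA in
/-- **The package that blocks C + E + S18 deliver** at a valuation subring `A` over `ℓ ∤ N`:
a place reduction `r` with the prelude's spec (C: (T2), (T3)), equivariant under the decomposition
group (C: (T4)), satisfying the Eichler–Shimura congruence on torsion classes (E-tors) and
injective on prime-to-`ℓ` torsion (S18). -/
def TorsionPackage (ℓ : ℕ) (hℓ : ℓ.Prime) (A : ValuationSubring Qb) : Prop :=
  ∃ (r : Place Qb (Fb N) → Place (Kap A) (Ft A N)) (hr : IsPlaceReductionModL A N r)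
    (hgen : PrincipalGeneratedByIntegral A (IsLocalRing.residue A) N),
    (∀ (σ : A.decompositionSubgroup ℚ) P,
      r (gal N (σ : Γ) • P) = coeffAut (Kap A) N (resAut ℚ A σ) • r P) ∧
    (∀ φ : Kap A ≃+* Kap A, (∀ x, φ x = x ^ ℓ) → ∀ x : JZero N,
      (∃ m : ℕ, m ≠ 0 ∧ m • x = 0) →
        reductionPic0Along r hr hgen (heckeOperatorBar N ⟨ℓ, hℓ⟩ x) =
          coeffAut (Kap A) N φ • reductionPic0Along r hr hgen x +
            ℓ • ((coeffAut (Kap A) N φ)⁻¹ • reductionPic0Along r hr hgen x)) ∧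
    (∀ m : ℕ, ¬ ℓ ∣ m → ∀ x : JZero N, m • x = 0 →
      reductionPic0Along r hr hgen x = 0 → x = 0)

theorem esCoreTors_of_torsionPackage (h : TorsionPackage N ℓ hℓ A) : Core.ESCoreTors N ℓ hℓ A := by
  obtain ⟨r, hr, hgen, hT4, hES, hinj⟩ := h
  exact esCoreTors_of_parts N hℓ hA hr hgen hT4 hES hinj

theorem esOnTorsion_of_torsionPackage (h : TorsionPackage N ℓ hℓ A) :
    Core.ESOnTorsion N ℓ hℓ A :=
  (esCoreTors_of_torsionPackage N hℓ hA h).esOnTorsion

end Fermat.Agent.N4F.ESAssembly
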