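/-
N4-FULL, glue for rows E7 / S18 (helper2): **a place map with the prelude's specification is
unique on torsion**, hence the frozen `reductionModL` (built from a CHOSEN place map) agrees on
torsion classes with the `Pic⁰`-map of ANY place map `r` satisfying the specification (e.g. block
C's canonical `rCan`).  No divisibility of `J(ℚ̄)` is needed: the divisor group is torsion-free.

* `mapDomain_eq_of_torsion`, `reductionPic0Along_eq_of_torsion`, `reductionAlong_eq_of_torsion`
  (generic: any `L`, `A`, `π : A →+* k`, `N`);
* `injective_on_torsion_of_S18` : from the FROZEN shape of S18 (about `reductionModL A N`), the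
  injectivity on prime-to-`ℓ` torsion of `reductionPic0Along r hr hgen` for ANY `r`
  (= `hinj` of `ESAssembly.esCore_of_parts`, = clause (iv) of `Core.ESCore`).
-/
import Mathlib
import Fermat.Prelude.Def_ModularCurve_ReductionModL

set_option autoImplicit false

open AlgebraicCurve ModularCurve

namespace Fermat.Agent.N4F.ReductionTorsion

section Generic

variable {L : Type*} [Field L] [Algebra ℚ L] {A : ValuationSubring L}
variable {k : Type*} [Field k] {π : A →+* k} {N : ℕ}
variable {r r' : Place L (laurentBaseChange L (modularFunctionFieldFull N)) →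
  Place k (modularFunctionFieldFullC k N)}

/-- Two place maps with the prelude's specification agree on integral principal divisors. -/
theorem mapDomain_eq_of_mem_integralPrincipalDivisors
    (hr : IsPlaceReductionAlong A π N r) (hr' : IsPlaceReductionAlong A π N r')
    {D : Divisor L (laurentBaseChange L (modularFunctionFieldFull N))}
    (hD : D ∈ integralPrincipalDivisors A π N) :
    Finsupp.mapDomain r D = Finsupp.mapDomain r' D := by
  obtain ⟨y, hy, hyk, hne, hDy⟩ := hD
  ext Q
  rw [hr.2 y hy hyk hne D hDy Q, hr'.2 y hy hyk hne D hDy Q]

/-- Two place maps with the prelude's specification agree on the subgroup generated by the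
integral principal divisors. -/
theorem mapDomain_eq_of_mem_closure
    (hr : IsPlaceReductionAlong A π N r) (hr' : IsPlaceReductionAlong A π N r')
    {D : Divisor L (laurentBaseChange L (modularFunctionFieldFull N))}
    (hD : D ∈ AddSubgroup.closure (integralPrincipalDivisors A π N)) :
    Finsupp.mapDomain r D = Finsupp.mapDomain r' D := by
  induction hD using AddSubgroup.closure_induction with
  | mem E hE => exact mapDomain_eq_of_mem_integralPrincipalDivisors hr hr' hE
  | zero => rw [Finsupp.mapDomain_zero, Finsupp.mapDomain_zero]
  | add E E' _ _ hE hE' => rw [Finsupp.mapDomain_add, Finsupp.mapDomain_add, hE, hE']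
  | neg E _ hE =>
    rw [← Finsupp.mapDomain.addMonoidHom_apply, ← Finsupp.mapDomain.addMonoidHom_apply (f := r'),
      map_neg, map_neg, Finsupp.mapDomain.addMonoidHom_apply, Finsupp.mapDomain.addMonoidHom_apply,
      hE]

/-- Two place maps with the prelude's specification agree on principal divisors. -/
theorem mapDomain_eq_of_mem_principal
    (hr : IsPlaceReductionAlong A π N r) (hr' : IsPlaceReductionAlong A π N r')
    (hgen : PrincipalGeneratedByIntegral A π N)
    {D : Divisor L (laurentBaseChange L (modularFunctionFieldFull N))}
    (hD : D ∈ Divisor.principal (K := L) (F := laurentBaseChange L (modularFunctionFieldFull N))) :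
    Finsupp.mapDomain r D = Finsupp.mapDomain r' D :=
  mapDomain_eq_of_mem_closure hr hr' (hgen hD)

/-- **Two place maps with the prelude's specification agree on every divisor a nonzero multiple of
which is principal.** -/
theorem mapDomain_eq_of_torsion
    (hr : IsPlaceReductionAlong A π N r) (hr' : IsPlaceReductionAlong A π N r')
    (hgen : PrincipalGeneratedByIntegral A π N)
    (D : Divisor L (laurentBaseChange L (modularFunctionFieldFull N))) (m : ℕ) (hm : m ≠ 0)
    (hD : m • D ∈
      Divisor.principal (K := L) (F := laurentBaseChange L (modularFunctionFieldFull N))) :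
    Finsupp.mapDomain r D = Finsupp.mapDomain r' D := by
  have h := mapDomain_eq_of_mem_principal hr hr' hgen hD
  rw [Finsupp.mapDomain_smul, Finsupp.mapDomain_smul] at h
  ext Q
  have hQ := DFunLike.congr_fun h Q
  rw [Finsupp.smul_apply, Finsupp.smul_apply, nsmul_eq_mul, nsmul_eq_mul] at hQ
  exact mul_left_cancel₀ (Nat.cast_ne_zero.mpr hm) hQ

/-- The induced maps on `Pic0` agree on torsion classes. -/
theorem reductionPic0Along_eq_of_torsion
    (hr : IsPlaceReductionAlong A π N r) (hr' : IsPlaceReductionAlong A π N r')
    (hgen hgen' : PrincipalGeneratedByIntegral A π N)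
    (x : Pic0 L (laurentBaseChange L (modularFunctionFieldFull N))) (m : ℕ) (hm : m ≠ 0)
    (hx : m • x = 0) :
    reductionPic0Along r hr hgen x = reductionPic0Along r' hr' hgen' x := by
  obtain ⟨D, rfl⟩ := Pic0.mk_surjective x
  rw [reductionPic0Along_mk, reductionPic0Along_mk]
  congr 1
  apply Subtype.ext
  rw [coe_reductionDegZeroAlong, coe_reductionDegZeroAlong]
  refine mapDomain_eq_of_torsion hr hr' hgen D.1 m hm ?_
  have h1 : Pic0.mk (m • D) = 0 := hx
  have h2 := (QuotientAddGroup.eq_zero_iff (m • D)).mp h1
  rw [AddSubgroup.mem_addSubgroupOf] at h2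
  simpa using h2

/-- **The frozen `reductionAlong` agrees on torsion classes with `reductionPic0Along r` for ANY
place map `r` with the prelude's specification.** -/
theorem reductionAlong_eq_of_torsion
    (hr : IsPlaceReductionAlong A π N r) (hgen : PrincipalGeneratedByIntegral A π N)
    (x : Pic0 L (laurentBaseChange L (modularFunctionFieldFull N))) (m : ℕ) (hm : m ≠ 0)
    (hx : m • x = 0) :
    reductionAlong A π N x = reductionPic0Along r hr hgen x := by
  have h : ReductionInputsAlong A π N := ⟨r, hr, hgen⟩
  rw [reductionAlong_eq h]
  exact reductionPic0Along_eq_of_torsion h.choose_spec.1 hr h.choose_spec.2 hgen x m hm hx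

end Generic

/-! ### The modular instance -/

section Modular

set_option synthInstance.maxHeartbeats 400000

variable {A : ValuationSubring (AlgebraicClosure ℚ)} {N : ℕ}
  {r : Place (AlgebraicClosure ℚ) (modularFunctionFieldBar N) →
    Place (IsLocalRing.ResidueField A)
      (modularFunctionFieldFullC (IsLocalRing.ResidueField A) N)}

/-- The frozen `reductionModL` agrees on torsion with `reductionPic0Along r` for any `r` with the
prelude's specification. -/
theorem reductionModL_eq_of_torsion (hr : IsPlaceReductionModL A N r)
    (hgen : PrincipalGeneratedByIntegral A (IsLocalRing.residue A) N)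
    (x : JZero N) (m : ℕ) (hm : m ≠ 0) (hx : m • x = 0) :
    reductionModL A N x = reductionPic0Along r hr hgen x :=
  reductionAlong_eq_of_torsion hr hgen x m hm hx

/-- **Clause (iv) of `ESCore` for ANY place map `r` with the prelude's specification, from the
frozen shape of S18** (which is about the chosen place map of `reductionModL`). -/
theorem injective_on_torsion_of_S18 {ℓ : ℕ} (hr : IsPlaceReductionModL A N r)
    (hgen : PrincipalGeneratedByIntegral A (IsLocalRing.residue A) N)
    (hS18 : ∀ (_ : ReductionInputsModL A N) (m : ℕ), ¬ ℓ ∣ m → ∀ z : JZero N, m • z = 0 →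
      reductionModL A N z = 0 → z = 0)
    (m : ℕ) (hm : ¬ ℓ ∣ m) (x : JZero N) (hx : m • x = 0)
    (hRx : reductionPic0Along r hr hgen x = 0) : x = 0 := by
  have hm0 : m ≠ 0 := fun h => hm (h ▸ dvd_zero ℓ)
  refine hS18 ⟨r, hr, hgen⟩ m hm x hx ?_
  rw [← hRx]
  exact reductionModL_eq_of_torsion hr hgen x m hm0 hx

end Modular

end Fermat.Agent.N4F.ReductionTorsion
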